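/-
S41 / [RED-CORE] steps (1)-(3) (helper89; split with helper42, reports #2861/#2865).

For an integral Weierstrass model `W`, primes `p ≠ ℓ` both odd with `p ∣ #W̃(𝔽_ℓ)` and a valuation
subring `A` of `ℚ̄` over `ℓ`:
* `exists_point_order_p` : Cauchy in `W̃(ZMod ℓ)`: an affine point killed by `p`, not `2`-torsion;
* easy half of the division polynomial criterion in characteristic `ℓ` (landed `S13.DivPsi`);
* `exists_root_lift`     : a root `x ∈ A` of `preΨ'_p` of the `ℚ̄`-curve congruent mod `𝔪_A` to the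
  integer `n` representing the `x`-coordinate of that point.
Everything about residues is phrased through integer representatives. Complete proofs.
-/
import Mathlib
import Fermat.Prelude.Def_FLTPrelim_Modularity
import Fermat.Prelude.Def_FLTPrelim_Ramification
import Fermat.Agent.S13.DivPsi

set_option autoImplicit false

namespace Fermat.Agent.S41.Red89

open WeierstrassCurve Polynomial

section val

variable {K : Type*} [Field K] (A : ValuationSubring K)

theorem nonunits_add {a b : K} (ha : a ∈ A.nonunits) (hb : b ∈ A.nonunits) :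
    a + b ∈ A.nonunits := by
  rw [ValuationSubring.mem_nonunits_iff] at ha hb ⊢
  exact A.valuation.map_add_lt ha hb

theorem nonunits_neg {a : K} (ha : a ∈ A.nonunits) : -a ∈ A.nonunits := by
  rw [ValuationSubring.mem_nonunits_iff] at ha ⊢
  rwa [Valuation.map_neg]

theorem mul_nonunits {a b : K} (ha : a ∈ A) (hb : b ∈ A.nonunits) : a * b ∈ A.nonunits := by
  rw [ValuationSubring.mem_nonunits_iff] at hb ⊢
  rw [map_mul]
  have h1 : A.valuation a ≤ 1 := (A.valuation_le_one_iff a).2 ha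
  calc A.valuation a * A.valuation b ≤ 1 * A.valuation b := mul_le_mul_left h1 _
    _ = A.valuation b := one_mul _
    _ < 1 := hb

/-- an element of `A` which is not a nonunit has valuation `1`. -/
theorem valuation_eq_one_of_not_nonunits {a : K} (ha : a ∈ A) (h : a ∉ A.nonunits) :
    A.valuation a = 1 := by
  rw [ValuationSubring.mem_nonunits_iff, not_lt] at h
  exact le_antisymm ((A.valuation_le_one_iff a).2 ha) h

theorem intCast_mem_nonunits_iff {ℓ : ℕ} (hℓ : ℓ.Prime) (hA : (ℓ : K) ∈ A.nonunits) (z : ℤ) :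
    (z : K) ∈ A.nonunits ↔ (ℓ : ℤ) ∣ z := by
  constructor
  · intro hz
    by_contra hnd
    have hcop : IsCoprime (ℓ : ℤ) z := by
      rw [Int.isCoprime_iff_gcd_eq_one]
      have := (Int.prime_iff_natAbs_prime.2 (by simpa using hℓ)).coprime_iff_not_dvd.2 hnd
      exact Int.isCoprime_iff_gcd_eq_one.1 this
    obtain ⟨a, b, hab⟩ := hcop
    have h1 : ((a : K) * (ℓ : K) + (b : K) * (z : K)) ∈ A.nonunits :=
      nonunits_add A (mul_nonunits A (intCast_mem A a) hA) (mul_nonunits A (intCast_mem A b) hz)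
    have h2 : ((a : K) * (ℓ : K) + (b : K) * (z : K)) = 1 := by
      have := congrArg (Int.cast : ℤ → K) hab
      push_cast at this
      exact this
    rw [h2, ValuationSubring.mem_nonunits_iff, map_one] at h1
    exact lt_irrefl _ h1
  · rintro ⟨k, rfl⟩
    push_cast
    rw [mul_comm]
    exact mul_nonunits A (intCast_mem A k) hA

/-- an integer prime to `ℓ` is a unit of `A`: its inverse lies in `A`. -/
theorem inv_intCast_mem {ℓ : ℕ} (hℓ : ℓ.Prime) (hA : (ℓ : K) ∈ A.nonunits) {c : ℤ}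
    (hc : ¬ (ℓ : ℤ) ∣ c) : ((c : K))⁻¹ ∈ A := by
  have h1 : A.valuation (c : K) = 1 :=
    valuation_eq_one_of_not_nonunits A (intCast_mem A c)
      (fun h => hc ((intCast_mem_nonunits_iff A hℓ hA c).1 h))
  rw [← A.valuation_le_one_iff, map_inv₀, h1, inv_one]

/-- every root in `K` of an integer polynomial whose leading coefficient is prime to `ℓ`
lies in `A` (valuation rings are integrally closed). -/
theorem root_mem {ℓ : ℕ} (hℓ : ℓ.Prime) (hA : (ℓ : K) ∈ A.nonunits) (f : ℤ[X])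
    (hlead : ¬ (ℓ : ℤ) ∣ f.leadingCoeff) {x : K}
    (hx : (f.map (Int.castRingHom K)).eval x = 0) : x ∈ A := by
  have hc0 : ((f.leadingCoeff : ℤ) : K) ≠ 0 := by
    intro h0
    have : ((f.leadingCoeff : ℤ) : K) ∈ A.nonunits := by
      rw [h0, ValuationSubring.mem_nonunits_iff, map_zero]; exact zero_lt_one
    exact hlead ((intCast_mem_nonunits_iff A hℓ hA _).1 this)
  have haev : aeval x f = 0 := by
    rw [aeval_def, ← eval_map]
    have : algebraMap ℤ K = Int.castRingHom K := RingHom.ext_int _ _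
    rw [this]; exact hx
  have hint : IsIntegral ℤ (f.leadingCoeff • x) := isIntegral_leadingCoeff_smul f x haev
  have hintA : IsIntegral A (f.leadingCoeff • x) := hint.tower_top
  obtain ⟨y, hy⟩ := IsIntegrallyClosed.isIntegral_iff.1 hintA
  have hy' : (f.leadingCoeff : K) * x ∈ A := by
    have : (f.leadingCoeff : K) * x = f.leadingCoeff • x := by
      rw [zsmul_eq_mul]
    rw [this, ← hy]
    exact y.2
  have := mul_mem (inv_intCast_mem A hℓ hA hlead) hy'
  rwa [← mul_assoc, inv_mul_cancel₀ hc0, one_mul] at this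

/-- if a product of elements of `A` is a nonunit, some factor is. -/
theorem exists_mem_nonunits_of_prod (s : Multiset K) (hs : ∀ a ∈ s, a ∈ A)
    (hprod : s.prod ∈ A.nonunits) : ∃ a ∈ s, a ∈ A.nonunits := by
  induction s using Multiset.induction_on with
  | empty =>
    rw [Multiset.prod_zero, ValuationSubring.mem_nonunits_iff, map_one] at hprod
    exact absurd hprod (lt_irrefl _)
  | cons a s ih =>
    by_cases ha : a ∈ A.nonunits
    · exact ⟨a, Multiset.mem_cons_self a s, ha⟩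
    · have ha1 : A.valuation a = 1 :=
        valuation_eq_one_of_not_nonunits A (hs a (Multiset.mem_cons_self a s)) ha
      rw [Multiset.prod_cons, ValuationSubring.mem_nonunits_iff, map_mul, ha1, one_mul] at hprod
      obtain ⟨b, hb, hb'⟩ := ih (fun b hb => hs b (Multiset.mem_cons_of_mem hb)) hprod
      exact ⟨b, Multiset.mem_cons_of_mem hb, hb'⟩

/-- **root lifting**: an integer polynomial `f` with leading coefficient prime to `ℓ` which
splits over `K`; if `ℓ ∣ f(n)` then `n` is congruent mod `𝔪_A` to a root of `f` in `A`. -/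
theorem exists_root_congr {ℓ : ℕ} (hℓ : ℓ.Prime) (hA : (ℓ : K) ∈ A.nonunits) (f : ℤ[X])
    (hlead : ¬ (ℓ : ℤ) ∣ f.leadingCoeff) (hsplit : (f.map (Int.castRingHom K)).Splits)
    (hinj : Function.Injective (Int.castRingHom K)) {n : ℤ} (hn : (ℓ : ℤ) ∣ f.eval n) :
    ∃ x : K, x ∈ A ∧ x - (n : K) ∈ A.nonunits ∧ (f.map (Int.castRingHom K)).eval x = 0 := by
  set fK := f.map (Int.castRingHom K) with hfK
  have hev : fK.eval (n : K) = ((f.eval n : ℤ) : K) := by
    rw [hfK, eval_map]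
    simp
  have hlc : fK.leadingCoeff = ((f.leadingCoeff : ℤ) : K) := by
    rw [hfK, leadingCoeff_map_of_injective hinj]; rfl
  have h1 : fK.eval (n : K) ∈ A.nonunits := by
    rw [hev]; exact (intCast_mem_nonunits_iff A hℓ hA _).2 hn
  rw [hsplit.eval_eq_prod_roots, hlc] at h1
  -- the leading coefficient is a unit: remove it
  have h2 : (fK.roots.map ((n : K) - ·)).prod ∈ A.nonunits := by
    have := mul_nonunits A (inv_intCast_mem A hℓ hA hlead) h1
    have hc0 : ((f.leadingCoeff : ℤ) : K) ≠ 0 := by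
      intro h0
      have : ((f.leadingCoeff : ℤ) : K) ∈ A.nonunits := by
        rw [h0, ValuationSubring.mem_nonunits_iff, map_zero]; exact zero_lt_one
      exact hlead ((intCast_mem_nonunits_iff A hℓ hA _).1 this)
    rwa [← mul_assoc, inv_mul_cancel₀ hc0, one_mul] at this
  have hroots : ∀ r ∈ fK.roots, r ∈ A := by
    intro r hr
    exact root_mem A hℓ hA f hlead (by simpa [hfK] using (mem_roots'.1 hr).2)
  obtain ⟨a, ha, ha'⟩ := exists_mem_nonunits_of_prod A _ (by
    intro a ha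
    obtain ⟨r, hr, rfl⟩ := Multiset.mem_map.1 ha
    exact sub_mem (intCast_mem A n) (hroots r hr)) h2
  obtain ⟨r, hr, rfl⟩ := Multiset.mem_map.1 ha
  refine ⟨r, hroots r hr, ?_, by simpa using (mem_roots'.1 hr).2⟩
  have := nonunits_neg A ha'
  rwa [neg_sub] at this

end val

section cauchy

/-- **Cauchy in `W̃(ZMod ℓ)`**: if `p ∣ ℓ + 1 - a_ℓ(W) = #W̃(𝔽_ℓ)` (`p` an odd prime) there is an
affine point of the reduction killed by `p` which is not `2`-torsion. -/
theorem exists_point_order_p (W : WeierstrassCurve ℤ) {p ℓ : ℕ} (hp : p.Prime) (hp2 : p ≠ 2)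
    [Fact ℓ.Prime] (hdvd : (p : ℤ) ∣ (ℓ : ℤ) + 1 - W.apOfModel ℓ) :
    ∃ (x y : ZMod ℓ) (h : (W.reductionMod ℓ).toAffine.Nonsingular x y),
      p • (Affine.Point.some x y h : (W.reductionMod ℓ).toAffine.Point) = 0 ∧
      y ≠ (W.reductionMod ℓ).toAffine.negY x y := by
  classical
  have : Fact p.Prime := ⟨hp⟩
  have hcard : (p : ℤ) ∣ (Nat.card (W.reductionMod ℓ).toAffine.Point : ℤ) := by
    have h1 : (ℓ : ℤ) + 1 - W.apOfModel ℓ = (Nat.card (W.reductionMod ℓ).toAffine.Point : ℤ) := by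
      rw [WeierstrassCurve.apOfModel, WeierstrassCurve.traceOfFrobenius, WeierstrassCurve.card,
        Nat.card_zmod]
      ring
    rwa [h1] at hdvd
  have hcard' : p ∣ Nat.card (W.reductionMod ℓ).toAffine.Point := by exact_mod_cast hcard
  obtain ⟨P, hP⟩ := exists_prime_addOrderOf_dvd_card' p hcard'
  have hpP : p • P = 0 := by rw [← hP]; exact addOrderOf_nsmul_eq_zero P
  have hP0 : P ≠ 0 := by
    intro h0
    rw [h0, addOrderOf_zero] at hP
    exact hp.one_lt.ne hP
  rcases P with _ | ⟨x, y, h⟩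
  · exact absurd rfl hP0
  · refine ⟨x, y, h, hpP, ?_⟩
    intro hy
    -- then `P = -P`, so `2 • P = 0`, so `p ∣ 2`
    have hneg : -(Affine.Point.some x y h : (W.reductionMod ℓ).toAffine.Point)
        = Affine.Point.some x y h := by
      rw [Affine.Point.neg_some]
      congr 1
      exact hy.symm
    have h2P : 2 • (Affine.Point.some x y h : (W.reductionMod ℓ).toAffine.Point) = 0 := by
      rw [two_nsmul]
      nth_rewrite 1 [← hneg]
      exact neg_add_cancel _
    have hdiv : p ∣ 2 := by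
      rw [← hP]
      exact addOrderOf_dvd_of_nsmul_eq_zero h2P
    exact hp2 ((Nat.prime_dvd_prime_iff_eq hp Nat.prime_two).1 hdiv)

end cauchy

section main

/-- **[RED-CORE] (1)-(3), general field**: `K` of characteristic `0` over which `preΨ'_p` splits. -/
theorem exists_root_lift_field {K : Type*} [Field K] [CharZero K] [IsAlgClosed K]
    (W : WeierstrassCurve ℤ) {p ℓ : ℕ} (hp : p.Prime) (hp2 : p ≠ 2)
    (hℓ : ℓ.Prime) (hℓ2 : ℓ ≠ 2) (hℓp : ℓ ≠ p)
    (hdvd : (p : ℤ) ∣ (ℓ : ℤ) + 1 - W.apOfModel ℓ)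
    (A : ValuationSubring K) (hA : (ℓ : K) ∈ A.nonunits) :
    ∃ (n m : ℤ) (x : K), x ∈ A ∧ x - (n : K) ∈ A.nonunits ∧
      (((W.map (Int.castRingHom K)).preΨ' p).eval x = 0) ∧
      (ℓ : ℤ) ∣ m ^ 2 + W.a₁ * n * m + W.a₃ * m - (n ^ 3 + W.a₂ * n ^ 2 + W.a₄ * n + W.a₆) ∧
      ¬ (ℓ : ℤ) ∣ 2 * m + W.a₁ * n + W.a₃ := by
  classical
  have : Fact ℓ.Prime := ⟨hℓ⟩
  obtain ⟨xt, yt, h, hpP, hy⟩ := exists_point_order_p W hp hp2 hdvd
  have h2 : (2 : ZMod ℓ) ≠ 0 := by
    intro h0
    have : ((2 : ℕ) : ZMod ℓ) = 0 := by exact_mod_cast h0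
    rw [ZMod.natCast_eq_zero_iff] at this
    exact hℓ2 ((Nat.prime_dvd_prime_iff_eq hℓ Nat.prime_two).1 this)
  have hroot : (((W.reductionMod ℓ).toAffine.preΨ (p : ℤ))).eval xt = 0 :=
    Fermat.Agent.S13.DivPsi.prePsi_eq_zero_of_prime_nsmul _ h2 h hp hp2 hpP
  obtain ⟨n, rfl⟩ := ZMod.intCast_surjective xt
  obtain ⟨m, rfl⟩ := ZMod.intCast_surjective yt
  -- the division polynomial of the integral model vanishes at `n` mod `ℓ`
  have hn : (ℓ : ℤ) ∣ (W.preΨ' p).eval n := by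
    rw [WeierstrassCurve.preΨ_ofNat, WeierstrassCurve.reductionMod,
      WeierstrassCurve.map_preΨ', eval_map] at hroot
    have h3 : eval₂ (Int.castRingHom (ZMod ℓ)) ((n : ℤ) : ZMod ℓ) (W.preΨ' p)
        = (((W.preΨ' p).eval n : ℤ) : ZMod ℓ) := by
      simp
    rw [h3] at hroot
    exact (ZMod.intCast_zmod_eq_zero_iff_dvd _ ℓ).1 hroot
  -- the Weierstrass equation mod `ℓ`
  have heq : (ℓ : ℤ) ∣
      m ^ 2 + W.a₁ * n * m + W.a₃ * m - (n ^ 3 + W.a₂ * n ^ 2 + W.a₄ * n + W.a₆) := by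
    have he := h.1
    rw [Affine.equation_iff] at he
    simp only [WeierstrassCurve.reductionMod, WeierstrassCurve.map_a₁, WeierstrassCurve.map_a₂,
      WeierstrassCurve.map_a₃, WeierstrassCurve.map_a₄, WeierstrassCurve.map_a₆,
      eq_intCast] at he
    rw [← ZMod.intCast_zmod_eq_zero_iff_dvd]
    push_cast
    linear_combination he
  have hY : ¬ (ℓ : ℤ) ∣ 2 * m + W.a₁ * n + W.a₃ := by
    intro hd
    apply hy
    rw [← ZMod.intCast_zmod_eq_zero_iff_dvd] at hd
    push_cast at hd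
    simp only [Affine.negY, WeierstrassCurve.reductionMod, WeierstrassCurve.map_a₁,
      WeierstrassCurve.map_a₃, eq_intCast]
    linear_combination hd
  -- root lifting
  have hpz : ((p : ℕ) : ℤ) ≠ 0 := by exact_mod_cast hp.ne_zero
  have hodd : ¬ Even p := fun he => hp2 ((Nat.Prime.even_iff hp).1 he)
  have hlead : (W.preΨ' p).leadingCoeff = (p : ℤ) := by
    rw [WeierstrassCurve.leadingCoeff_preΨ' W hpz, if_neg hodd]
  have hlead' : ¬ (ℓ : ℤ) ∣ (W.preΨ' p).leadingCoeff := by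
    rw [hlead, Int.natCast_dvd_natCast]
    exact fun hd => hℓp ((Nat.prime_dvd_prime_iff_eq hℓ hp).1 hd)
  obtain ⟨x, hxA, hxn, hx0⟩ := exists_root_congr A hℓ hA (W.preΨ' p) hlead'
    (IsAlgClosed.splits _) (RingHom.injective_int (Int.castRingHom K)) hn
  refine ⟨n, m, x, hxA, hxn, ?_, heq, hY⟩
  rw [WeierstrassCurve.map_preΨ']
  exact hx0

/-- **[RED-CORE] (1)-(3)** in the consumer shape (`ℚ̄`, curve `(W_ℚ)⁄ℚ̄`). -/
theorem exists_root_lift (W : WeierstrassCurve ℤ) {p ℓ : ℕ} (hp : p.Prime) (hp2 : p ≠ 2)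
    (hℓ : ℓ.Prime) (hℓ2 : ℓ ≠ 2) (hℓp : ℓ ≠ p)
    (hdvd : (p : ℤ) ∣ (ℓ : ℤ) + 1 - W.apOfModel ℓ)
    (A : ValuationSubring (AlgebraicClosure ℚ)) (hA : A.LiesOverPrime ℓ) :
    ∃ (n m : ℤ) (x : AlgebraicClosure ℚ), x ∈ A ∧ x - (n : AlgebraicClosure ℚ) ∈ A.nonunits ∧
      ((((W.map (Int.castRingHom ℚ)).baseChange (AlgebraicClosure ℚ)).preΨ' p).eval x = 0) ∧
      (ℓ : ℤ) ∣ m ^ 2 + W.a₁ * n * m + W.a₃ * m - (n ^ 3 + W.a₂ * n ^ 2 + W.a₄ * n + W.a₆) ∧
      ¬ (ℓ : ℤ) ∣ 2 * m + W.a₁ * n + W.a₃ := by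
  have hcurve : (W.map (Int.castRingHom ℚ)).baseChange (AlgebraicClosure ℚ)
      = W.map (Int.castRingHom (AlgebraicClosure ℚ)) := by
    rw [WeierstrassCurve.baseChange, WeierstrassCurve.map_map]
    congr 1
  rw [hcurve]
  exact exists_root_lift_field W hp hp2 hℓ hℓ2 hℓp hdvd A hA

/-- the same without the last conjunct: literally the hypothesis `hroot` of
`Red70.torsLift_of_rootLift` (helper70, report #2868). -/
theorem exists_root_lift' (W : WeierstrassCurve ℤ) {p ℓ : ℕ} (hp : p.Prime) (hp2 : p ≠ 2)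
    (hℓ : ℓ.Prime) (hℓ2 : ℓ ≠ 2) (hℓp : ℓ ≠ p)
    (hdvd : (p : ℤ) ∣ (ℓ : ℤ) + 1 - W.apOfModel ℓ)
    (A : ValuationSubring (AlgebraicClosure ℚ)) (hA : A.LiesOverPrime ℓ) :
    ∃ (n m : ℤ) (x : AlgebraicClosure ℚ), x ∈ A ∧ x - (n : AlgebraicClosure ℚ) ∈ A.nonunits ∧
      ((((W.map (Int.castRingHom ℚ)).baseChange (AlgebraicClosure ℚ)).preΨ' p).eval x = 0) ∧
      (ℓ : ℤ) ∣ m ^ 2 + W.a₁ * n * m + W.a₃ * m - (n ^ 3 + W.a₂ * n ^ 2 + W.a₄ * n + W.a₆) := by
  obtain ⟨n, m, x, h1, h2, h3, h4, -⟩ := exists_root_lift W hp hp2 hℓ hℓ2 hℓp hdvd A hA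
  exact ⟨n, m, x, h1, h2, h3, h4⟩

end main

end Fermat.Agent.S41.Red89
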